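import Mathlib.Algebra.BigOperators.Group.List.Basic
import Mathlib.Algebra.Group.End
import Mathlib.Algebra.Group.Subgroup.Lattice
import Mathlib.Data.Fintype.Basic
import Mathlib.Tactic.DeriveFintype

/-!
# The Grigorchuk group

Four automatic involutions of the binary tree, words in them, and the sections of a word at the
first level.
-/

set_option autoImplicit false

namespace FA.Grigorchuk

/-- The four generators. -/
inductive Gen
  | a
  | b
  | c
  | d
  deriving DecidableEq, Fintype

/-- The action on the vertices of the tree. -/
def act : Gen → List Bool → List Bool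
  | _, [] => []
  | .a, x :: w => (!x) :: w
  | .b, false :: w => false :: act .a w
  | .b, true :: w => true :: act .c w
  | .c, false :: w => false :: act .a w
  | .c, true :: w => true :: act .d w
  | .d, false :: w => false :: w
  | .d, true :: w => true :: act .b w

theorem act_nil (g : Gen) : act g [] = [] := by cases g <;> rfl

theorem act_act : ∀ (g : Gen) (w : List Bool), act g (act g w) = w := by
  intro g w
  induction w generalizing g with
  | nil => cases g <;> rfl
  | cons x w ih => cases g <;> cases x <;> simp [act, ih]

theorem act_products : ∀ w : List Bool,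
    act .b (act .c w) = act .d w ∧ act .c (act .b w) = act .d w ∧
      act .b (act .d w) = act .c w ∧ act .d (act .b w) = act .c w ∧
        act .c (act .d w) = act .b w ∧ act .d (act .c w) = act .b w := by
  intro w
  induction w with
  | nil => simp [act]
  | cons x w ih => cases x <;> simp [act, ih, act_act]

/-- A generator as a permutation of the tree. -/
def perm (g : Gen) : Equiv.Perm (List Bool) := Function.Involutive.toPerm (act g) (act_act g)

theorem perm_apply (g : Gen) (w : List Bool) : perm g w = act g w := rfl

theorem perm_mul_self (g : Gen) : perm g * perm g = 1 := Equiv.ext fun w => act_act g w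

theorem perm_inv (g : Gen) : (perm g)⁻¹ = perm g := inv_eq_of_mul_eq_one_right (perm_mul_self g)

/-- The **Grigorchuk group**. -/
def grigorchuk : Subgroup (Equiv.Perm (List Bool)) := Subgroup.closure (Set.range perm)

/-- The value of a word. -/
def ev (L : List Gen) : Equiv.Perm (List Bool) := (L.map perm).prod

theorem ev_nil : ev [] = 1 := rfl

theorem ev_cons (g : Gen) (L : List Gen) : ev (g :: L) = perm g * ev L := by simp [ev]

theorem ev_append (L M : List Gen) : ev (L ++ M) = ev L * ev M := by simp [ev]

theorem ev_singleton (g : Gen) : ev [g] = perm g := by simp [ev]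

theorem ev_reverse (L : List Gen) : ev L.reverse = (ev L)⁻¹ := by
  induction L with
  | nil => simp [ev_nil]
  | cons g L ih =>
    rw [List.reverse_cons, ev_append, ih, ev_singleton, ev_cons, mul_inv_rev, perm_inv]

theorem ev_mem (L : List Gen) : ev L ∈ grigorchuk := by
  induction L with
  | nil => exact grigorchuk.one_mem
  | cons g L ih =>
    rw [ev_cons]
    exact grigorchuk.mul_mem (Subgroup.subset_closure ⟨g, rfl⟩) ih

theorem mem_grigorchuk_iff {g : Equiv.Perm (List Bool)} : g ∈ grigorchuk ↔ ∃ L, ev L = g := by
  refine ⟨fun h => ?_, fun ⟨L, h⟩ => h ▸ ev_mem L⟩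
  induction h using Subgroup.closure_induction with
  | mem x hx =>
    obtain ⟨g, rfl⟩ := hx
    exact ⟨[g], ev_singleton g⟩
  | one => exact ⟨[], ev_nil⟩
  | mul x y _ _ hx hy =>
    obtain ⟨⟨L, rfl⟩, ⟨M, rfl⟩⟩ := And.intro hx hy
    exact ⟨L ++ M, ev_append L M⟩
  | inv x _ hx =>
    obtain ⟨L, rfl⟩ := hx
    exact ⟨L.reverse, ev_reverse L⟩

theorem ev_apply_nil (L : List Gen) : ev L [] = [] := by
  induction L with
  | nil => rfl
  | cons g L ih => rw [ev_cons, Equiv.Perm.mul_apply, ih, perm_apply, act_nil]

/-- Whether the generator changes the first letter. -/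
def isA : Gen → Bool
  | .a => true
  | _ => false

@[simp] theorem isA_a : isA .a = true := rfl

@[simp] theorem isA_b : isA .b = false := rfl

@[simp] theorem isA_c : isA .c = false := rfl

@[simp] theorem isA_d : isA .d = false := rfl

/-- The section of a generator. -/
def out : Gen → Bool → List Gen
  | .a, _ => []
  | .b, false => [.a]
  | .b, true => [.c]
  | .c, false => [.a]
  | .c, true => [.d]
  | .d, false => []
  | .d, true => [.b]

/-- The image of the first letter. -/
def top : List Gen → Bool → Bool
  | [], x => x
  | g :: L, x => if isA g then !top L x else top L x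

/-- The section of a word at a first letter. -/
def sec : List Gen → Bool → List Gen
  | [], _ => []
  | g :: L, x => out g (top L x) ++ sec L x

theorem ev_apply_cons (L : List Gen) (x : Bool) (w : List Bool) :
    ev L (x :: w) = top L x :: ev (sec L x) w := by
  induction L generalizing w with
  | nil => rfl
  | cons g L ih =>
    rw [ev_cons, Equiv.Perm.mul_apply, ih, perm_apply, sec, ev_append, Equiv.Perm.mul_apply, top]
    cases g <;> cases top L x <;> simp [act, out, isA, ev, perm_apply]

theorem top_append (L M : List Gen) (x : Bool) : top (L ++ M) x = top L (top M x) := by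
  induction L with
  | nil => rfl
  | cons g L ih => simp [top, ih]

theorem sec_append (L M : List Gen) (x : Bool) :
    sec (L ++ M) x = sec L (top M x) ++ sec M x := by
  induction L with
  | nil => rfl
  | cons g L ih => simp [sec, ih, top_append]

theorem top_not (L : List Gen) (x : Bool) : top L (!x) = !top L x := by
  induction L with
  | nil => rfl
  | cons g L ih => cases h : isA g <;> simp [top, h, ih]

/-- The weights of the generators. -/
def wt : Gen → ℕ
  | .a => 47
  | .b => 53
  | .c => 34
  | .d => 19

/-- A sum over the two sections of a word. -/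
theorem sum_sec (f : Gen → ℕ) (L : List Gen) :
    ((sec L false).map f).sum + ((sec L true).map f).sum =
      (L.map fun g => ((out g false).map f).sum + ((out g true).map f).sum).sum := by
  induction L with
  | nil => rfl
  | cons g L ih =>
    have h := top_not L false
    simp only [Bool.not_false] at h
    simp only [sec, List.map_append, List.sum_append, List.map_cons, List.sum_cons, ← ih]
    rw [h]
    cases top L false <;> simp only [Bool.not_false, Bool.not_true] <;> omega

/-- Consecutive letters are of different kinds. -/
def Alt (L : List Gen) : Prop := ∀ P x y Q, L = P ++ x :: y :: Q → isA x ≠ isA y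

theorem Alt.tail {g : Gen} {L : List Gen} (h : Alt (g :: L)) : Alt L := fun P x y Q e =>
  h (g :: P) x y Q (by rw [e, List.cons_append])

theorem Alt.reverse {L : List Gen} (h : Alt L) : Alt L.reverse := fun P x y Q e => by
  refine (h Q.reverse y x P.reverse ?_).symm
  have := congrArg List.reverse e
  simpa [List.append_assoc] using this

/-- In an alternating word the two kinds are balanced. -/
theorem Alt.count_le {L : List Gen} (h : Alt L) (p : Bool) :
    L.countP (fun g => isA g == p) ≤ L.countP (fun g => isA g == !p) + 1 ∧
      ∀ g M, L = g :: M → isA g = !p →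
        L.countP (fun g => isA g == p) ≤ L.countP (fun g => isA g == !p) := by
  induction L with
  | nil => simp
  | cons g L ih =>
    obtain ⟨ih1, ih2⟩ := ih h.tail
    rw [List.countP_cons, List.countP_cons]
    by_cases hg : isA g = p
    · have hhead : L.countP (fun g => isA g == p) ≤ L.countP (fun g => isA g == !p) := by
        match L, ih2 with
        | [], _ => simp
        | y :: M, ih2 =>
          refine ih2 y M rfl (Bool.eq_not.2 ?_)
          rw [← hg]
          exact (h [] g y M rfl).symm
      have e1 : (isA g == p) = true := by simp [hg]
      have e2 : (isA g == !p) = false := by simp [hg]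
      refine ⟨?_, fun g' M e hg' => ?_⟩
      · simp only [e1, e2, if_true, Bool.false_eq_true, if_false]
        omega
      · simp only [List.cons.injEq] at e
        rw [← e.1, hg] at hg'
        cases p <;> simp at hg'
    · have e1 : (isA g == p) = false := by simp [hg]
      have e2 : (isA g == !p) = true := by simp [Bool.eq_not.2 hg]
      refine ⟨?_, fun _ _ _ _ => ?_⟩ <;>
        simp only [e1, e2, if_true, Bool.false_eq_true, if_false] <;> omega

/-- Two letters of the same kind can be merged. -/
theorem exists_merge (x y : Gen) (h : isA x = isA y) :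
    ∃ m : List Gen, ev m = ev [x, y] ∧ m.length ≤ 1 ∧ (m.map wt).sum ≤ wt x + wt y := by
  have hp : ∀ u v z : Gen, (∀ w, act u (act v w) = act z w) → ev [z] = ev [u, v] := fun u v z e =>
    Equiv.ext fun w => by simpa [ev, perm_apply] using (e w).symm
  by_cases hxy : x = y
  · subst hxy
    exact ⟨[], by simp [ev, perm_mul_self], by simp, by simp⟩
  · cases x <;> cases y <;> simp [isA] at h hxy ⊢
    · exact ⟨[.d], hp _ _ _ fun w => (act_products w).1, by simp, by simp [wt]⟩
    · exact ⟨[.c], hp _ _ _ fun w => (act_products w).2.2.1, by simp, by simp [wt]⟩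
    · exact ⟨[.d], hp _ _ _ fun w => (act_products w).2.1, by simp, by simp [wt]⟩
    · exact ⟨[.b], hp _ _ _ fun w => (act_products w).2.2.2.2.1, by simp, by simp [wt]⟩
    · exact ⟨[.c], hp _ _ _ fun w => (act_products w).2.2.2.1, by simp, by simp [wt]⟩
    · exact ⟨[.b], hp _ _ _ fun w => (act_products w).2.2.2.2.2, by simp, by simp [wt]⟩

/-- A word which does not alternate can be shortened. -/
theorem exists_shorter {L : List Gen} (h : ¬ Alt L) :
    ∃ M : List Gen, ev M = ev L ∧ M.length < L.length ∧ (M.map wt).sum ≤ (L.map wt).sum := by
  simp only [Alt, ne_eq, not_forall, not_not] at h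
  obtain ⟨P, x, y, Q, rfl, hxy⟩ := h
  obtain ⟨m, hm, hl, hw⟩ := exists_merge x y hxy
  refine ⟨P ++ m ++ Q, ?_, ?_, ?_⟩
  · rw [ev_append, ev_append, hm, mul_assoc, ← ev_append, ev_append P]
    rfl
  · simp only [List.length_append, List.length_cons]
    omega
  · simp only [List.map_append, List.sum_append, List.map_cons, List.sum_cons]
    omega

/-- Every element has an alternating word of no greater weight. -/
theorem exists_alt (L : List Gen) :
    ∃ M : List Gen, ev M = ev L ∧ Alt M ∧ (M.map wt).sum ≤ (L.map wt).sum := by
  induction hn : L.length using Nat.strong_induction_on generalizing L with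
  | h n ih =>
    by_cases h : Alt L
    · exact ⟨L, rfl, h, le_rfl⟩
    obtain ⟨M, hM, hlen, hw⟩ := exists_shorter h
    obtain ⟨M', hM', ha, hw'⟩ := ih M.length (hn ▸ hlen) M rfl
    exact ⟨M', hM'.trans hM, ha, hw'.trans hw⟩

/-- The substitution lifting a word to the right-hand section. -/
def subst : Gen → List Gen
  | .a => [.a, .c, .a]
  | .b => [.d]
  | .c => [.b]
  | .d => [.c]

theorem top_subst (L : List Gen) (x : Bool) : top (L.flatMap subst) x = x := by
  induction L with
  | nil => rfl
  | cons g L ih => cases g <;> simp [List.flatMap_cons, subst, top, isA, ih]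

theorem sec_subst (L : List Gen) : sec (L.flatMap subst) true = L := by
  induction L with
  | nil => rfl
  | cons g L ih =>
    rw [List.flatMap_cons, sec_append, top_subst, ih]
    cases g <;> rfl

/-- Equal elements have the same sections. -/
theorem ev_sec_congr {L M : List Gen} (h : ev L = ev M) (x : Bool) :
    top L x = top M x ∧ ev (sec L x) = ev (sec M x) := by
  have hw : ∀ w, top L x = top M x ∧ ev (sec L x) w = ev (sec M x) w := fun w => by
    have := congrArg (fun e => e (x :: w)) h
    simp only [ev_apply_cons, List.cons.injEq] at this
    exact this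
  exact ⟨(hw []).1, Equiv.ext fun w => (hw w).2⟩

end FA.Grigorchuk
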