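import Fermat.Agent.Grigorchuk.Upper
import Mathlib.Algebra.BigOperators.Group.Finset.Basic
import Mathlib.Algebra.Group.Pointwise.Set.Basic
import Mathlib.Data.Set.Finite.Lattice

/-!
# The growth of the Grigorchuk group is superpolynomial

The normal closure `B` of `b` has finite index and the group contains a copy of `B × B`, with linear
bounds for lengths.  So squaring of the size of balls costs a linear change of radius.
-/

set_option autoImplicit false

noncomputable section

namespace FA.Grigorchuk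

/-- The normal closure of `b`. -/
def core : Subgroup (Equiv.Perm (List Bool)) :=
  Subgroup.closure {h | ∃ g ∈ grigorchuk, h = g * perm .b * g⁻¹}

theorem core_le : core ≤ grigorchuk := (Subgroup.closure_le _).2 fun h ⟨g, hg, e⟩ => by
  rw [e]
  exact grigorchuk.mul_mem (grigorchuk.mul_mem hg (Subgroup.subset_closure ⟨_, rfl⟩))
    (grigorchuk.inv_mem hg)

theorem conj_mem_core {g h : Equiv.Perm (List Bool)} (hg : g ∈ grigorchuk) (hh : h ∈ core) :
    g * h * g⁻¹ ∈ core := by
  induction hh using Subgroup.closure_induction with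
  | mem x hx =>
    obtain ⟨u, hu, rfl⟩ := hx
    exact Subgroup.subset_closure ⟨g * u, grigorchuk.mul_mem hg hu, by group⟩
  | one => simp [core.one_mem]
  | mul x y _ _ hx hy =>
    rw [show g * (x * y) * g⁻¹ = g * x * g⁻¹ * (g * y * g⁻¹) by group]
    exact core.mul_mem hx hy
  | inv x _ hx =>
    rw [show g * x⁻¹ * g⁻¹ = (g * x * g⁻¹)⁻¹ by group]
    exact core.inv_mem hx

/-- The product `da`. -/
def rot : Equiv.Perm (List Bool) := perm .d * perm .a

/-- The coset representatives. -/
def reps : Set (Equiv.Perm (List Bool)) :=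
  Set.range fun p : Bool × Fin 4 => (if p.1 then perm .a else 1) * rot ^ (p.2 : ℕ)

theorem finite_reps : reps.Finite := Set.finite_range _

theorem rot_pow_four : rot ^ 4 = 1 := by
  have h : rot ^ 4 = ev [.d, .a, .d, .a, .d, .a, .d, .a] := by
    simp [rot, ev, pow_succ, mul_assoc]
  rw [h]
  refine Equiv.ext fun v => ?_
  match v with
  | [] => rfl
  | x :: w =>
    rw [ev_apply_cons]
    cases x <;> simp [sec, top, out, ev, perm_apply, act_act]

theorem mem_reps (e : Bool) (i : ℕ) : (if e then perm .a else 1) * rot ^ i ∈ reps := by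
  refine ⟨(e, ⟨i % 4, Nat.mod_lt _ (by norm_num)⟩), ?_⟩
  show (if e then perm .a else 1) * rot ^ (i % 4) = _
  rw [← pow_eq_pow_mod i rot_pow_four]

theorem a_mul_mem_reps {r : Equiv.Perm (List Bool)} (hr : r ∈ reps) : perm .a * r ∈ reps := by
  obtain ⟨⟨e, i⟩, rfl⟩ := hr
  cases e
  · simpa using mem_reps true i
  · simpa [← mul_assoc, perm_mul_self] using mem_reps false i

theorem d_mul_mem_reps {r : Equiv.Perm (List Bool)} (hr : r ∈ reps) : perm .d * r ∈ reps := by
  obtain ⟨⟨e, i⟩, rfl⟩ := hr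
  cases e
  · have hd : perm .d = perm .a * rot ^ 3 := by
      have h4 : rot * rot ^ 3 = 1 := by rw [← pow_succ', rot_pow_four]
      have h5 : perm .a * rot ^ 3 = perm .d * (rot * rot ^ 3) := by
        rw [rot, ← mul_assoc (perm .d), ← mul_assoc (perm .d), perm_mul_self, one_mul]
      rw [h5, h4, mul_one]
    simpa [hd, mul_assoc, ← pow_add] using mem_reps true (3 + i)
  · simpa [← mul_assoc, rot, ← pow_succ'] using mem_reps false ((i : ℕ) + 1)

/-- Every element is in `core` times a representative. -/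
theorem exists_coset {g : Equiv.Perm (List Bool)} (hg : g ∈ grigorchuk) :
    ∃ r ∈ reps, g * r⁻¹ ∈ core := by
  obtain ⟨L, rfl⟩ := mem_grigorchuk_iff.1 hg
  clear hg
  induction L with
  | nil => exact ⟨_, mem_reps false 0, by simp [ev_nil, core.one_mem]⟩
  | cons g L ih =>
    obtain ⟨r, hr, hh⟩ := ih
    have hgmem : perm g ∈ grigorchuk := Subgroup.subset_closure ⟨g, rfl⟩
    have hcc := conj_mem_core hgmem hh
    have hb : perm .b ∈ core :=
      Subgroup.subset_closure ⟨1, grigorchuk.one_mem, by simp⟩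
    rw [ev_cons]
    cases g
    · exact ⟨_, a_mul_mem_reps hr, by convert hcc using 1; group⟩
    · refine ⟨r, hr, ?_⟩
      convert core.mul_mem hcc hb using 1
      rw [perm_inv]
      simp only [mul_assoc, perm_mul_self]
      rw [mul_one]
    · refine ⟨_, d_mul_mem_reps hr, ?_⟩
      have hcd : perm .c = perm .b * perm .d := Equiv.ext fun w => (act_products w).2.2.1.symm
      convert core.mul_mem (core.mul_mem hb (conj_mem_core (Subgroup.subset_closure ⟨.d, rfl⟩) hh))
        (core.one_mem) using 1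
      rw [hcd, mul_one]
      group
    · exact ⟨_, d_mul_mem_reps hr, by convert hcc using 1; group⟩

/-- `g` acts as `h` below the vertex `x` and trivially elsewhere. -/
def IsLift (x : Bool) (h g : Equiv.Perm (List Bool)) : Prop :=
  g [] = [] ∧ ∀ y w, g (y :: w) = y :: (if y = x then h w else w)

theorem IsLift.mul {x : Bool} {h h' g g' : Equiv.Perm (List Bool)} (hg : IsLift x h g)
    (hg' : IsLift x h' g') : IsLift x (h * h') (g * g') := by
  refine ⟨by rw [Equiv.Perm.mul_apply, hg'.1, hg.1], fun y w => ?_⟩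
  rw [Equiv.Perm.mul_apply, hg'.2, hg.2]
  split_ifs <;> rfl

theorem IsLift.inv {x : Bool} {h g : Equiv.Perm (List Bool)} (hg : IsLift x h g) :
    IsLift x h⁻¹ g⁻¹ := by
  refine ⟨g.injective ?_, fun y w => g.injective ?_⟩
  · show g (g.symm []) = _
    rw [Equiv.apply_symm_apply, hg.1]
  · show g (g.symm (y :: w)) = _
    rw [Equiv.apply_symm_apply, hg.2]
    split_ifs <;> simp

theorem exists_lift {h : Equiv.Perm (List Bool)} (hh : h ∈ core) :
    ∃ L, IsLift true h (ev L) := by
  induction hh using Subgroup.closure_induction with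
  | mem x hx =>
    obtain ⟨u, hu, rfl⟩ := hx
    obtain ⟨L, rfl⟩ := mem_grigorchuk_iff.1 hu
    set P := L.flatMap subst with hP
    refine ⟨P ++ [.d] ++ P.reverse, ev_apply_nil _, fun y w => ?_⟩
    rw [ev_append, ev_append, ev_singleton, ev_reverse, Equiv.Perm.mul_apply,
      Equiv.Perm.mul_apply]
    have hinv : (ev P)⁻¹ (y :: w) = y :: (ev (sec P y))⁻¹ w := by
      rw [Equiv.Perm.inv_eq_iff_eq, ev_apply_cons, hP, top_subst, ← Equiv.Perm.mul_apply,
        mul_inv_cancel, Equiv.Perm.one_apply]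
    rw [hinv, perm_apply]
    cases y
    · simp [act, ev_apply_cons, hP, top_subst]
    · simp [act, ev_apply_cons, hP, top_subst, sec_subst, perm_apply]
  | one => exact ⟨[], rfl, fun y w => by simp [ev_nil]⟩
  | mul x y _ _ hx hy =>
    obtain ⟨⟨L, hL⟩, ⟨M, hM⟩⟩ := And.intro hx hy
    exact ⟨L ++ M, by rw [ev_append]; exact hL.mul hM⟩
  | inv x _ hx =>
    obtain ⟨L, hL⟩ := hx
    exact ⟨L.reverse, by rw [ev_reverse]; exact hL.inv⟩

/-- The elements of `core` which lift with words of length at most `n`. -/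
def liftBall (n : ℕ) : Set (Equiv.Perm (List Bool)) :=
  {h | ∃ L : List Gen, L.length ≤ n ∧ IsLift true h (ev L)}

theorem schreier : ∃ M, ∀ n, ball n ⊆
    {g | ∃ h ∈ liftBall (M * n), ∃ r ∈ reps, g = h * r} := by
  classical
  let T : Set (Equiv.Perm (List Bool)) :=
    (fun p : _ × Gen × _ => p.1 * perm p.2.1 * p.2.2⁻¹) '' (reps ×ˢ Set.univ ×ˢ reps) ∩ core
  have hT : T.Finite :=
    ((finite_reps.prod (Set.finite_univ.prod finite_reps)).image _).inter_of_left _
  choose W hW using fun t : T => exists_lift t.2.2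
  have := hT.to_subtype
  have := Fintype.ofFinite T
  refine ⟨∑ t : T, (W t).length, fun n => ?_⟩
  rintro _ ⟨L, hL, rfl⟩
  suffices key : ∀ L : List Gen, ∃ h ∈ liftBall ((∑ t : T, (W t).length) * L.length),
      ∃ r ∈ reps, ev L = h * r by
    obtain ⟨h, ⟨P, hP, hl⟩, r, hr, e⟩ := key L
    exact ⟨h, ⟨P, hP.trans (Nat.mul_le_mul_left _ hL), hl⟩, r, hr, e⟩
  intro L
  induction L using List.reverseRecOn with
  | nil => exact ⟨1, ⟨[], by simp, rfl, fun y w => by simp [ev_nil]⟩, _, mem_reps false 0,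
      by simp [ev_nil]⟩
  | append_singleton L g ih =>
    obtain ⟨h, ⟨P, hP, hl⟩, r, hr, e⟩ := ih
    have hrg : r ∈ grigorchuk := by
      obtain ⟨⟨b, i⟩, rfl⟩ := hr
      refine grigorchuk.mul_mem ?_ (grigorchuk.pow_mem
        (grigorchuk.mul_mem (Subgroup.subset_closure ⟨_, rfl⟩)
          (Subgroup.subset_closure ⟨_, rfl⟩)) _)
      cases b
      · exact grigorchuk.one_mem
      · exact Subgroup.subset_closure ⟨_, rfl⟩
    obtain ⟨r', hr', hmem⟩ :=
      exists_coset (grigorchuk.mul_mem hrg (Subgroup.subset_closure ⟨g, rfl⟩))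
    have ht : r * perm g * r'⁻¹ ∈ T :=
      ⟨⟨(r, g, r'), Set.mk_mem_prod hr (Set.mk_mem_prod (Set.mem_univ _) hr'), rfl⟩, hmem⟩
    refine ⟨h * (r * perm g * r'⁻¹), ⟨P ++ W ⟨_, ht⟩, ?_, ?_⟩, r', hr', ?_⟩
    · have h1 : (W ⟨_, ht⟩).length ≤ ∑ t : T, (W t).length :=
        Finset.single_le_sum (f := fun t : T => (W t).length) (fun _ _ => Nat.zero_le _)
          (Finset.mem_univ _)
      simp only [List.length_append, List.length_singleton, Nat.mul_succ]
      omega
    · rw [ev_append]
      exact hl.mul (hW ⟨_, ht⟩)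
    · rw [ev_append, ev_singleton, e]
      group

/-- Conjugation by `a` moves a lift to the other side. -/
theorem IsLift.conj_a {h g : Equiv.Perm (List Bool)} (hg : IsLift true h g) :
    IsLift false h (perm .a * g * perm .a) := by
  refine ⟨by simp [Equiv.Perm.mul_apply, perm_apply, act_nil, hg.1], fun y w => ?_⟩
  cases y <;> simp [Equiv.Perm.mul_apply, perm_apply, act, hg.2]

/-- **Squaring**: a linear change of radius squares the size of the ball. -/
theorem exists_squaring : ∃ A R : ℕ, 0 < R ∧ ∀ n, 1 ≤ n →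
    (ball n).ncard ^ 2 ≤ R * (ball (A * n)).ncard := by
  classical
  obtain ⟨M, hM⟩ := schreier
  refine ⟨2 * M + 2, reps.ncard ^ 2, pow_pos (Nat.pos_of_ne_zero fun e => ?_) 2, fun n hn => ?_⟩
  · rw [Set.ncard_eq_zero finite_reps] at e
    exact (e ▸ mem_reps false 0 : _ ∈ (∅ : Set (Equiv.Perm (List Bool))))
  choose W hW1 hW2 using fun h : liftBall (M * n) => h.2
  let Φ : liftBall (M * n) × liftBall (M * n) → Equiv.Perm (List Bool) := fun p =>
    ev ([Gen.a] ++ W p.1 ++ [Gen.a] ++ W p.2)
  have hmem : ∀ p, Φ p ∈ ball ((2 * M + 2) * n) := fun p => ⟨_, by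
    simp only [Set.mem_ofPred_eq, List.length_append, List.length_singleton]
    have := hW1 p.1
    have := hW1 p.2
    rw [add_mul, mul_assoc]
    omega, rfl⟩
  have hinj : Function.Injective Φ := by
    have hval : ∀ p y w, Φ p (y :: w) = y :: (if y = true then p.2.1 w else p.1.1 w) := by
      intro p y w
      simp only [Φ, ev_append, ev_singleton, Equiv.Perm.mul_apply, (hW2 p.2).2]
      cases y <;> simp [perm_apply, act, (hW2 p.1).2]
    intro p q e
    refine Prod.ext (Subtype.ext (Equiv.ext fun w => ?_)) (Subtype.ext (Equiv.ext fun w => ?_))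
    · simpa [hval] using congrArg (fun u => u (false :: w)) e
    · simpa [hval] using congrArg (fun u => u (true :: w)) e
  have hfin : (liftBall (M * n)).Finite := by
    have := (finite_ball (M * n)).to_subtype
    refine Set.finite_coe_iff.1 (Finite.of_injective
      (fun h : liftBall (M * n) => (⟨ev (W h), W h, hW1 h, rfl⟩ : ball (M * n))) fun h h' e => ?_)
    refine Subtype.ext (Equiv.ext fun w => ?_)
    have := congrArg (fun u => u.1 (true :: w)) e
    simpa [(hW2 h).2, (hW2 h').2] using this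
  have h1 : (ball n).ncard ≤ (liftBall (M * n)).ncard * reps.ncard := by
    refine le_trans ((Set.ncard_le_ncard ?_ ((hfin.prod finite_reps).image
      fun p => p.1 * p.2)).trans (Set.ncard_image_le (hfin.prod finite_reps))) (Set.ncard_prod).le
    · exact fun g hg => by
        obtain ⟨h, hh, r, hr, rfl⟩ := hM n hg
        exact ⟨(h, r), Set.mk_mem_prod hh hr, rfl⟩
  have h2 : (liftBall (M * n)).ncard ^ 2 ≤ (ball ((2 * M + 2) * n)).ncard := by
    rw [pow_two, ← Nat.card_coe_set_eq, ← Nat.card_prod, ← Nat.card_range_of_injective hinj,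
      Nat.card_coe_set_eq]
    exact Set.ncard_le_ncard (Set.range_subset_iff.2 hmem) (finite_ball _)
  calc (ball n).ncard ^ 2 ≤ ((liftBall (M * n)).ncard * reps.ncard) ^ 2 :=
        Nat.pow_le_pow_left h1 2
    _ ≤ _ := by
      rw [mul_pow, mul_comm]
      exact Nat.mul_le_mul_left _ h2

/-- The balls are unbounded. -/
theorem exists_large_ball (N : ℕ) : ∃ n, 1 ≤ n ∧ N ≤ (ball n).ncard := by
  have := infinite_grigorchuk
  obtain ⟨s, hs⟩ := Infinite.exists_subset_card_eq grigorchuk N
  choose W hW using fun g : grigorchuk => mem_grigorchuk_iff.1 g.2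
  refine ⟨s.sup (fun g => (W g).length) + 1, Nat.le_add_left _ _, ?_⟩
  calc N = (s.map ⟨Subtype.val, Subtype.val_injective⟩ : Finset _).card := by simp [hs]
    _ = ((s.map ⟨Subtype.val, Subtype.val_injective⟩ : Finset _) : Set _).ncard :=
      (Set.ncard_coe_finset _).symm
    _ ≤ _ := Set.ncard_le_ncard (fun g hg => by
      obtain ⟨u, hu, rfl⟩ := Finset.mem_map.1 hg
      exact ⟨W u, (Finset.le_sup (f := fun g => (W g).length) hu).trans (Nat.le_add_right _ 1),
        hW u⟩) (finite_ball _)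

/-- **No polynomial bounds the balls.** -/
theorem ball_superpoly (C D : ℕ) : ∃ n, C * (n + 1) ^ D < (ball n).ncard := by
  by_contra! hle
  obtain ⟨A, R, hR, hsq⟩ := exists_squaring
  obtain ⟨n₀, hn₀, hbig⟩ := exists_large_ball (2 * R)
  have hA : 1 ≤ A := by
    by_contra hA
    have h0 : A = 0 := by omega
    have h1 := hsq n₀ hn₀
    rw [h0, zero_mul] at h1
    have h2 : (ball 0).ncard ≤ 1 := by simpa using card_ball_le 0
    nlinarith
  have hiter : ∀ k : ℕ, R * 2 ^ 2 ^ k ≤ (ball (A ^ k * n₀)).ncard := by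
    intro k
    induction k with
    | zero => simpa [mul_comm] using hbig
    | succ k ih =>
      have h1 := hsq (A ^ k * n₀) (Nat.one_le_iff_ne_zero.2
        (Nat.mul_ne_zero (pow_ne_zero _ (by omega)) (by omega)))
      rw [← mul_assoc, ← pow_succ'] at h1
      have h2 : (R * 2 ^ 2 ^ k) ^ 2 ≤ (ball (A ^ k * n₀)).ncard ^ 2 := Nat.pow_le_pow_left ih 2
      rw [pow_succ, pow_mul]
      refine Nat.le_of_mul_le_mul_left ?_ hR
      calc R * (R * (2 ^ 2 ^ k) ^ 2) = (R * 2 ^ 2 ^ k) ^ 2 := by ring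
        _ ≤ _ := h2.trans h1
  set p := C + (n₀ + 1) * D + A * D with hp
  have hk := (hiter (2 * p + 3)).trans (hle _)
  set k := 2 * p + 3 with hkdef
  have hbound : C * (A ^ k * n₀ + 1) ^ D < 2 ^ 2 ^ k := by
    have h1 : A ^ k * n₀ + 1 ≤ A ^ k * (n₀ + 1) := by
      rw [Nat.mul_succ]
      exact Nat.add_le_add_left (Nat.one_le_pow _ _ hA) _
    have h2 : A ^ k * (n₀ + 1) ≤ 2 ^ (A * k + (n₀ + 1)) := by
      refine (Nat.mul_le_mul (Nat.pow_le_pow_left (Nat.lt_two_pow_self (n := A)).le k)
        (Nat.lt_two_pow_self (n := n₀ + 1)).le).trans_eq ?_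
      rw [← pow_mul, ← pow_add]
    calc C * (A ^ k * n₀ + 1) ^ D ≤ 2 ^ C * (2 ^ (A * k + (n₀ + 1))) ^ D :=
          Nat.mul_le_mul Nat.lt_two_pow_self.le (Nat.pow_le_pow_left (h1.trans h2) D)
      _ = 2 ^ (C + (A * k + (n₀ + 1)) * D) := by rw [← pow_mul, ← pow_add]
      _ < _ := by
        refine Nat.pow_lt_pow_right one_lt_two ?_
        have h3 : C + (A * k + (n₀ + 1)) * D ≤ p * (k + 1) := by
          rw [hp]
          nlinarith [Nat.zero_le (C * k), Nat.zero_le ((n₀ + 1) * D * k), Nat.zero_le (A * D)]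
        have h4 : p + 1 ≤ 2 ^ p := Nat.lt_two_pow_self
        have h5 : (2 : ℕ) ^ k = 8 * (2 ^ p * 2 ^ p) := by
          rw [hkdef, pow_add, two_mul, pow_add]
          ring
        refine lt_of_le_of_lt h3 ?_
        rw [h5, hkdef]
        nlinarith [Nat.mul_le_mul h4 h4]
  exact absurd hk (not_le.2 (lt_of_lt_of_le hbound (Nat.le_mul_of_pos_left _ hR)))

end FA.Grigorchuk

end
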