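import Fermat.Agent.Grigorchuk.Basic
import Mathlib.Algebra.BigOperators.Group.List.Lemmas
import Mathlib.Data.Fintype.EquivFin
import Mathlib.Data.Fintype.Option
import Mathlib.GroupTheory.OrderOfElement
import Mathlib.Tactic.Group

/-!
# The Grigorchuk group is an infinite 2-group

By induction on the length of words: the sections of a cyclically reduced word, or of its square,
are shorter, or contain a `d`, or a `c`, after one step.
-/

set_option autoImplicit false

namespace FA.Grigorchuk

/-- The order is a power of `2`. -/
def IsTwo (g : Equiv.Perm (List Bool)) : Prop := ∃ k : ℕ, g ^ 2 ^ k = 1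

theorem IsTwo.conj {g : Equiv.Perm (List Bool)} (h : IsTwo g) (x : Equiv.Perm (List Bool)) :
    IsTwo (x * g * x⁻¹) := by
  obtain ⟨k, hk⟩ := h
  exact ⟨k, by rw [conj_pow, hk, mul_one, mul_inv_cancel]⟩

theorem IsTwo.of_sq {g : Equiv.Perm (List Bool)} (h : IsTwo (g * g)) : IsTwo g := by
  obtain ⟨k, hk⟩ := h
  exact ⟨k + 1, by rwa [pow_succ', pow_mul, pow_two]⟩

/-- An element fixing the first level is a 2-element if its sections are. -/
theorem IsTwo.of_sections {L : List Gen} (ht : ∀ x, top L x = x)
    (h : ∀ x, IsTwo (ev (sec L x))) : IsTwo (ev L) := by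
  obtain ⟨k₀, hk₀⟩ := h false
  obtain ⟨k₁, hk₁⟩ := h true
  refine ⟨k₀ + k₁, Equiv.ext fun v => ?_⟩
  have hpow : ∀ (N : ℕ) x w, (ev L ^ N) (x :: w) = x :: (ev (sec L x) ^ N) w := by
    intro N
    induction N with
    | zero => simp
    | succ N ih =>
      intro x w
      rw [pow_succ', Equiv.Perm.mul_apply, ih, ev_apply_cons, ht, pow_succ', Equiv.Perm.mul_apply]
  have hnil : ∀ N : ℕ, (ev L ^ N) [] = [] := fun N => by
    induction N with
    | zero => simp
    | succ N ih => rw [pow_succ', Equiv.Perm.mul_apply, ih, ev_apply_nil]
  match v with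
  | [] => rw [hnil]; rfl
  | false :: w => rw [hpow, pow_add 2, pow_mul, hk₀, one_pow]; rfl
  | true :: w => rw [hpow, pow_add 2, mul_comm, pow_mul, hk₁, one_pow]; rfl

theorem top_eq_xor (L : List Gen) (x : Bool) :
    top L x = xor x (decide (L.countP isA % 2 = 1)) := by
  induction L with
  | nil => simp [top]
  | cons g L ih =>
    rw [top, List.countP_cons]
    rcases Nat.mod_two_eq_zero_or_one (L.countP isA) with h | h <;>
      cases hg : isA g <;> simp [ih, h, Nat.add_mod]

theorem length_eq_sum (L : List Gen) : L.length = (L.map fun _ => (1 : ℕ)).sum := by simp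

theorem count_eq_sum (x : Gen) (L : List Gen) :
    L.count x = (L.map fun g => if g = x then (1 : ℕ) else 0).sum := by
  induction L with
  | nil => simp
  | cons g L ih =>
    rw [List.count_cons, ih, List.map_cons, List.sum_cons]
    by_cases h : g = x <;> simp [h, add_comm]

theorem length_sec_le (L : List Gen) (x : Bool) : (sec L x).length ≤ L.countP (!isA ·) := by
  induction L with
  | nil => simp [sec]
  | cons g L ih =>
    rw [sec, List.length_append, List.countP_cons]
    cases g <;> cases top L x <;> simp [out] <;> omega

theorem countP_isA_eq {L : List Gen} (h : Alt L) {g g' : Gen} {M : List Gen}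
    (hL : L = g :: M ++ [g']) (hne : isA g ≠ isA g') :
    L.countP isA = L.countP (!isA ·) := by
  have key : ∀ p, isA g = p → L.countP (fun u => isA u == !p) = L.countP (fun u => isA u == p) := by
    intro p hp
    have h1 := (h.count_le (!p)).2 g (M ++ [g']) (by rw [hL]; rfl) (by simpa using hp)
    have h2 := (h.reverse.count_le p).2 g' (M.reverse ++ [g]) (by rw [hL]; simp)
      (Bool.eq_not.2 (hp ▸ hne.symm))
    simp only [List.countP_reverse, Bool.not_not] at h1 h2
    omega
  rcases Bool.eq_false_or_eq_true (isA g) with hp | hp <;>
    (have := key _ hp; simp only [Bool.not_true, Bool.not_false, beq_true, beq_false] at this)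
  exacts [this.symm, this]

/-- The sections of the square of a word. -/
theorem sum_sq_sections (L : List Gen) (hodd : top L false = true) (x : Bool) (f : Gen → ℕ) :
    ((sec (L ++ L) x).map f).sum =
      (L.map fun g => ((out g false).map f).sum + ((out g true).map f).sum).sum := by
  have hxor : top L x = !x := by
    cases x
    · simpa using hodd
    · have := top_not L false
      rw [hodd] at this
      simpa using this
  rw [sec_append, hxor, List.map_append, List.sum_append, ← sum_sec]
  cases x <;> simp [add_comm]

/-- One induction step: either done, or the square has good sections. -/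
theorem isTwo_or_odd {n : ℕ} (ih : ∀ M : List Gen, M.length < n → IsTwo (ev M)) {L : List Gen}
    (hL : L.length ≤ n) : IsTwo (ev L) ∨
      (L.countP isA = L.countP (!isA ·) ∧ top L false = true ∧ L.length = n) := by
  rcases Nat.lt_or_eq_of_le hL with hlt | hlen
  · exact Or.inl (ih L hlt)
  by_cases halt : Alt L
  swap
  · obtain ⟨M, hM, hlt, -⟩ := exists_shorter halt
    exact Or.inl (hM ▸ ih M (by omega))
  rcases L with _ | ⟨g, L'⟩
  · exact Or.inl ⟨0, by simp [ev_nil]⟩
  rcases L'.eq_nil_or_concat' with rfl | ⟨M, g', rfl⟩
  · exact Or.inl ⟨1, by rw [ev_singleton, pow_one, pow_two, perm_mul_self]⟩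
  by_cases hne : isA g = isA g'
  · obtain ⟨m, hm, hl, -⟩ := exists_merge g' g hne.symm
    refine Or.inl ?_
    rw [show ev (g :: (M ++ [g'])) = perm g * ev (M ++ m) * (perm g)⁻¹ by
      simp only [ev_append M m, hm, ev_cons, ev_append, ev_nil, mul_one]
      group]
    refine (ih _ ?_).conj _
    simp only [List.length_append, List.length_cons, List.length_nil] at hlen ⊢
    omega
  have hcount := countP_isA_eq halt rfl hne
  have htot := List.length_eq_countP_add_countP (p := isA) (l := g :: (M ++ [g']))
  have hnot : (g :: (M ++ [g'])).countP (fun u => decide ¬(isA u = true)) =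
      (g :: (M ++ [g'])).countP (!isA ·) := by congr; funext u; simp
  by_cases hpar : top (g :: (M ++ [g'])) false = true
  · exact Or.inr ⟨hcount, hpar, hlen⟩
  refine Or.inl (IsTwo.of_sections (fun x => ?_) fun x => ih _ ?_)
  · rw [top_eq_xor] at hpar ⊢
    simp only [Bool.false_xor] at hpar
    simp [hpar]
  · refine lt_of_le_of_lt (length_sec_le _ _) ?_
    simp only [List.length_cons, List.length_append, List.length_nil] at hlen htot
    omega

theorem isTwo_ev (L : List Gen) : IsTwo (ev L) := by
  induction hn : L.length using Nat.strong_induction_on generalizing L with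
  | h n ih' =>
    have ih : ∀ M : List Gen, M.length < n → IsTwo (ev M) := fun M hM => ih' _ hM M rfl
    have reduce : ∀ L : List Gen, L.length ≤ n →
        (∀ x, L.countP isA = L.countP (!isA ·) → L.length = n → top L false = true →
          IsTwo (ev (sec (L ++ L) x))) → IsTwo (ev L) := by
      intro L hL hsq
      rcases isTwo_or_odd ih hL with h | ⟨hc, ht, hlen⟩
      · exact h
      refine IsTwo.of_sq ?_
      rw [← ev_append]
      refine IsTwo.of_sections (fun x => ?_) fun x => hsq x hc hlen ht
      have := top_not L false
      rw [ht] at this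
      rw [top_append]
      cases x <;> simp_all
    have hlenle : ∀ L : List Gen, L.countP isA = L.countP (!isA ·) → L.length = n →
        top L false = true → ∀ x, (sec (L ++ L) x).length + L.count .d = n := by
      intro L hc hlen ht x
      rw [length_eq_sum, sum_sq_sections L ht, count_eq_sum, ← List.sum_map_add, ← hlen]
      have h2 : ∀ M : List Gen, (M.map fun g =>
          ((out g false).map fun _ => (1 : ℕ)).sum + ((out g true).map fun _ => (1 : ℕ)).sum +
            if g = .d then 1 else 0).sum = 2 * M.countP (!isA ·) := by
        intro M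
        induction M with
        | nil => simp
        | cons g M ih => rw [List.map_cons, List.sum_cons, ih, List.countP_cons]
                         cases g <;> simp [out] <;> omega
      rw [h2]
      have := List.length_eq_countP_add_countP (p := isA) (l := L)
      have hnot : L.countP (fun u => decide ¬(isA u = true)) = L.countP (!isA ·) := by
        congr; funext u; simp
      omega
    have hcnt : ∀ (L : List Gen), top L false = true → ∀ x,
        (sec (L ++ L) x).count .d = L.count .c ∧ (sec (L ++ L) x).count .c = L.count .b := by
      intro L ht x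
      have h2 : ∀ u v : Gen, (∀ g, ((out g false).map fun g => if g = u then (1 : ℕ) else 0).sum +
          ((out g true).map fun g => if g = u then (1 : ℕ) else 0).sum = if g = v then 1 else 0) →
          (sec (L ++ L) x).count u = L.count v := fun u v h => by
        rw [count_eq_sum, count_eq_sum, sum_sq_sections L ht]
        simp only [h]
      exact ⟨h2 _ _ fun g => by cases g <;> simp [out],
        h2 _ _ fun g => by cases g <;> simp [out]⟩
    have hd : ∀ L : List Gen, L.length ≤ n → 0 < L.count .d → IsTwo (ev L) := fun L hL hd =>
      reduce L hL fun x hc hlen ht => ih _ (by have := hlenle L hc hlen ht x; omega)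
    have hc : ∀ L : List Gen, L.length ≤ n → 0 < L.count .c → IsTwo (ev L) := fun L hL hc' =>
      reduce L hL fun x hc hlen ht => hd _ (by have := hlenle L hc hlen ht x; omega)
        (by rw [(hcnt L ht x).1]; exact hc')
    refine reduce L hn.le fun x hcnt' hlen ht => ?_
    have hs := hlenle L hcnt' hlen ht x
    by_cases hb : 0 < L.count .b
    · exact hc _ (by omega) (by rw [(hcnt L ht x).2]; exact hb)
    by_cases hc0 : 0 < L.count .c
    · exact hd _ (by omega) (by rw [(hcnt L ht x).1]; exact hc0)
    refine ih _ ?_
    have hpos : 0 < L.countP (!isA ·) := by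
      rw [← hcnt']
      rw [top_eq_xor] at ht
      simp at ht
      omega
    obtain ⟨g, hg, hga⟩ := List.countP_pos_iff.1 hpos
    have : 0 < L.count g := List.count_pos_iff.2 hg
    cases g <;> simp at hga <;> omega

/-- **Every element has order a power of 2.** -/
theorem exists_orderOf_eq_two_pow {g : Equiv.Perm (List Bool)} (hg : g ∈ grigorchuk) :
    ∃ k, orderOf g = 2 ^ k := by
  obtain ⟨L, rfl⟩ := mem_grigorchuk_iff.1 hg
  obtain ⟨k, hk⟩ := isTwo_ev L
  obtain ⟨j, -, hj⟩ := (Nat.dvd_prime_pow Nat.prime_two).1 (orderOf_dvd_of_pow_eq_one hk)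
  exact ⟨j, hj⟩

/-- **The group is infinite.** -/
theorem infinite_grigorchuk : Infinite grigorchuk := by
  refine not_finite_iff_infinite.1 fun hfin => ?_
  choose W hW using fun g : grigorchuk => mem_grigorchuk_iff.1 g.2
  let φ : grigorchuk → grigorchuk := fun g => ⟨ev ((W g).flatMap subst), ev_mem _⟩
  have hinj : Function.Injective φ := fun g g' e => by
    have := (ev_sec_congr (congrArg Subtype.val e) true).2
    rw [sec_subst, sec_subst, hW, hW] at this
    exact Subtype.ext this
  obtain ⟨g, hg⟩ := Finite.surjective_of_injective hinj ⟨ev [Gen.a], ev_mem _⟩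
  have := (ev_sec_congr (congrArg Subtype.val hg) true).1
  simp [top_subst, top] at this

end FA.Grigorchuk
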