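import Fermat.Agent.Grigorchuk.Torsion
import Mathlib.Analysis.SpecialFunctions.Pow.Continuity
import Mathlib.Analysis.SpecificLimits.Normed
import Mathlib.Data.Set.Card.Arithmetic
import Mathlib.Data.Set.Finite.List

/-!
# The growth of the Grigorchuk group is subexponential

With integral weights the two sections of an alternating word have at most five sixths of its
weight, up to a constant.  So the admissible exponential rates are closed under taking powers of
exponent greater than `5 / 6`.
-/

set_option autoImplicit false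

noncomputable section

namespace FA.Grigorchuk

open Filter

/-- The elements with words of length at most `n`. -/
def ball (n : ℕ) : Set (Equiv.Perm (List Bool)) := ev '' {L | L.length ≤ n}

/-- The elements with words of weight at most `n`. -/
def wball (n : ℕ) : Set (Equiv.Perm (List Bool)) := ev '' {L | (L.map wt).sum ≤ n}

theorem finite_ball (n : ℕ) : (ball n).Finite := (List.finite_length_le Gen n).image _

theorem length_le_weight (L : List Gen) : L.length ≤ (L.map wt).sum := by
  induction L with
  | nil => simp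
  | cons g L ih => cases g <;> simp [wt] <;> omega

theorem weight_le_length (L : List Gen) : (L.map wt).sum ≤ 53 * L.length := by
  induction L with
  | nil => simp
  | cons g L ih => cases g <;> simp [wt] <;> omega

theorem wball_subset (n : ℕ) : wball n ⊆ ball n :=
  Set.image_mono fun L hL => (length_le_weight L).trans hL

theorem finite_wball (n : ℕ) : (wball n).Finite := (finite_ball n).subset (wball_subset n)

theorem ball_subset_wball (n : ℕ) : ball n ⊆ wball (53 * n) :=
  Set.image_mono fun L hL => (weight_le_length L).trans (Nat.mul_le_mul_left 53 hL)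

theorem ball_mono {m n : ℕ} (h : m ≤ n) : ball m ⊆ ball n := Set.image_mono fun _ hL => hL.trans h

theorem card_ball_le (n : ℕ) : (ball n).ncard ≤ 5 ^ n := by
  let dec : (Fin n → Option Gen) → Equiv.Perm (List Bool) :=
    fun f => ev ((List.ofFn f).filterMap id)
  have hsub : ball n ⊆ Set.range dec := by
    rintro _ ⟨L, hL, rfl⟩
    refine ⟨fun i => L[(i : ℕ)]?, congrArg ev ?_⟩
    clear dec
    induction L generalizing n with
    | nil => simp
    | cons g L ih =>
      obtain ⟨m, rfl⟩ : ∃ m, n = m + 1 := ⟨n - 1, by simp at hL; omega⟩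
      rw [List.ofFn_succ]
      simpa using ih m (by simpa using hL)
  refine (Set.ncard_le_ncard hsub (Set.finite_range dec)).trans ?_
  rw [← Set.image_univ]
  refine (Set.ncard_image_le Set.finite_univ).trans ?_
  have : Fintype.card Gen = 4 := rfl
  simp [Set.ncard_univ, this]

/-- **Contraction**: the sections of an element of small weight have small total weight. -/
theorem weight_sections {L : List Gen} (h : Alt L) :
    6 * (((sec L false).map wt).sum + ((sec L true).map wt).sum) ≤ 5 * ((L.map wt).sum + 47) := by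
  rw [sum_sec]
  have key : ∀ g, 6 * (((out g false).map wt).sum + ((out g true).map wt).sum) +
      (if isA g = true then 235 else 0) ≤ 5 * wt g + (if isA g = true then 0 else 235) :=
    fun g => by cases g <;> decide
  have h1 : ∀ M : List Gen,
      6 * (M.map fun g => ((out g false).map wt).sum + ((out g true).map wt).sum).sum +
          235 * M.countP isA ≤
        5 * (M.map wt).sum + 235 * M.countP (!isA ·) := by
    intro M
    induction M with
    | nil => simp
    | cons g M ih =>
      have := key g
      rw [List.map_cons, List.sum_cons, List.map_cons, List.sum_cons, List.countP_cons,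
        List.countP_cons]
      cases hg : isA g <;>
        simp only [hg, Bool.not_true, Bool.not_false, if_true, if_false,
          Bool.false_eq_true] at this ⊢ <;> omega
  have h2 := (h.count_le false).1
  simp only [Bool.not_false, beq_false, beq_true] at h2
  change L.countP (!isA ·) ≤ L.countP isA + 1 at h2
  have := h1 L
  omega

/-- The recursion for the number of elements of bounded weight. -/
theorem card_wball_le (n : ℕ) :
    (wball n).ncard ≤ 2 * ∑ i ∈ Finset.range (5 * (n + 47) / 6 + 1),
      (wball i).ncard * (wball (5 * (n + 47) / 6 - i)).ncard := by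
  classical
  set N := 5 * (n + 47) / 6 with hN
  choose W hW using fun g : wball n => g.2
  choose A hA1 hA2 hA3 using fun g : wball n => exists_alt (W g)
  let T : Set (Bool × Equiv.Perm (List Bool) × Equiv.Perm (List Bool)) :=
    ⋃ i ∈ (Finset.range (N + 1) : Set ℕ), Set.univ ×ˢ wball i ×ˢ wball (N - i)
  have hT : T.Finite := (Finset.finite_toSet _).biUnion fun i _ =>
    Set.finite_univ.prod ((finite_wball i).prod (finite_wball _))
  let F : wball n → Bool × Equiv.Perm (List Bool) × Equiv.Perm (List Bool) := fun g =>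
    (top (A g) false, ev (sec (A g) false), ev (sec (A g) true))
  have hmem : ∀ g, F g ∈ T := by
    intro g
    have h := weight_sections (hA2 g)
    have hw : ((A g).map wt).sum ≤ n := (hA3 g).trans (hW g).1
    refine Set.mem_biUnion (x := ((sec (A g) false).map wt).sum) ?_ ?_
    · simp only [Finset.coe_range, Set.mem_Iio, hN]
      omega
    · exact Set.mk_mem_prod (Set.mem_univ _) (Set.mk_mem_prod
        ⟨_, show ((sec (A g) false).map wt).sum ≤ _ from le_rfl, rfl⟩
        ⟨_, show ((sec (A g) true).map wt).sum ≤ _ by omega, rfl⟩)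
  have hinj : Function.Injective F := by
    intro g g' e
    simp only [F, Prod.mk.injEq] at e
    obtain ⟨e1, e2, e3⟩ := e
    refine Subtype.ext ?_
    rw [← (hW g).2, ← (hW g').2, ← hA1 g, ← hA1 g']
    refine Equiv.ext fun v => ?_
    match v with
    | [] => rw [ev_apply_nil, ev_apply_nil]
    | false :: w => rw [ev_apply_cons, ev_apply_cons, e1, e2]
    | true :: w =>
      have h1 := top_not (A g) false
      have h2 := top_not (A g') false
      simp only [Bool.not_false] at h1 h2
      rw [ev_apply_cons, ev_apply_cons, h1, h2, e1, e3]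
  calc (wball n).ncard = (Set.range F).ncard := by
        rw [← Nat.card_coe_set_eq, ← Nat.card_coe_set_eq, Nat.card_range_of_injective hinj]
    _ ≤ T.ncard := Set.ncard_le_ncard (by rintro _ ⟨g, rfl⟩; exact hmem g) hT
    _ ≤ ∑ i ∈ Finset.range (N + 1),
        (Set.univ ×ˢ wball i ×ˢ wball (N - i) : Set (Bool × _ × _)).ncard :=
      Finset.set_ncard_biUnion_le (Finset.range (N + 1)) _
    _ = _ := by
      rw [Finset.mul_sum]
      refine Finset.sum_congr rfl fun i _ => ?_
      rw [Set.ncard_prod, Set.ncard_prod, Set.ncard_univ]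
      simp

/-- `μ` is an admissible rate. -/
def Admissible (μ : ℝ) : Prop := ∃ K : ℝ, ∀ n : ℕ, ((wball n).ncard : ℝ) ≤ K * μ ^ n

theorem admissible_five : Admissible 5 :=
  ⟨1, fun n => by
    rw [one_mul]
    exact_mod_cast (Set.ncard_le_ncard (wball_subset n) (finite_ball n)).trans (card_ball_le n)⟩

theorem Admissible.contract {lam μ : ℝ} (hlam : 1 ≤ lam) (hμ : lam ^ (5 / 6 : ℝ) < μ)
    (h : Admissible lam) : Admissible μ := by
  obtain ⟨K, hK⟩ := h
  have hlam0 : 0 < lam := lt_of_lt_of_le one_pos hlam
  set q := lam ^ (5 / 6 : ℝ) with hq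
  have hq0 : 0 < q := Real.rpow_pos_of_pos hlam0 _
  have hμ0 : 0 < μ := hq0.trans hμ
  have hK0 : 0 ≤ K := le_trans (Nat.cast_nonneg _) (by simpa using hK 0)
  have hr : q / μ < 1 := by rwa [div_lt_one hμ0]
  obtain ⟨B, hB⟩ : ∃ B : ℝ, ∀ n : ℕ, ((n : ℝ) + 48) * (q / μ) ^ n ≤ B := by
    have ht := (tendsto_self_mul_const_pow_of_lt_one (by positivity) hr).add
      ((tendsto_pow_atTop_nhds_zero_of_lt_one (by positivity) hr).const_mul 48)
    obtain ⟨B, hB⟩ := ht.bddAbove_range
    exact ⟨B, fun n => le_trans (by rw [add_mul]) (hB ⟨n, rfl⟩)⟩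
  refine ⟨2 * K ^ 2 * lam ^ (40 : ℝ) * B, fun n => ?_⟩
  set N := 5 * (n + 47) / 6 with hN
  have hNn : (N : ℝ) + 1 ≤ n + 48 := by
    have : N + 1 ≤ n + 48 := by omega
    exact_mod_cast this
  have hpow : lam ^ N ≤ lam ^ (40 : ℝ) * q ^ n := by
    rw [hq, ← Real.rpow_natCast (lam ^ (5 / 6 : ℝ)), ← Real.rpow_mul hlam0.le,
      ← Real.rpow_add hlam0, ← Real.rpow_natCast]
    refine Real.rpow_le_rpow_of_exponent_le hlam ?_
    have h6 : 6 * N ≤ 5 * (n + 47) := Nat.mul_div_le _ _
    have h6' : (6 : ℝ) * N ≤ 5 * ((n : ℝ) + 47) := by exact_mod_cast h6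
    linarith
  have hsum : ((wball n).ncard : ℝ) ≤ 2 * (((N : ℝ) + 1) * (K ^ 2 * lam ^ N)) := by
    refine le_trans (Nat.cast_le.2 (card_wball_le n)) ?_
    rw [Nat.cast_mul, Nat.cast_two, Nat.cast_sum]
    refine mul_le_mul_of_nonneg_left ((Finset.sum_le_card_nsmul _ _ (K ^ 2 * lam ^ N)
      fun i hi => ?_).trans_eq ?_) zero_le_two
    · rw [Finset.mem_range] at hi
      rw [Nat.cast_mul]
      calc ((wball i).ncard : ℝ) * (wball (N - i)).ncard ≤ K * lam ^ i * (K * lam ^ (N - i)) :=
            mul_le_mul (hK i) (hK _) (by positivity) (by positivity)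
        _ = K ^ 2 * lam ^ N := by
          rw [show lam ^ N = lam ^ i * lam ^ (N - i) by rw [← pow_add]; congr 1; omega]
          ring
    · simp [nsmul_eq_mul, hN]
  calc ((wball n).ncard : ℝ) ≤ 2 * (((n : ℝ) + 48) * (K ^ 2 * (lam ^ (40 : ℝ) * q ^ n))) :=
        hsum.trans (mul_le_mul_of_nonneg_left (mul_le_mul hNn
          (mul_le_mul_of_nonneg_left hpow (by positivity)) (by positivity) (by positivity))
          zero_le_two)
    _ = 2 * K ^ 2 * lam ^ (40 : ℝ) * (((n : ℝ) + 48) * (q / μ) ^ n) * μ ^ n := by
      rw [div_pow]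
      field_simp
    _ ≤ _ := by gcongr; exact hB n

/-- **Every rate above one is admissible.** -/
theorem admissible_of_one_lt {μ : ℝ} (hμ : 1 < μ) : Admissible μ := by
  have hk : ∀ k : ℕ, Admissible ((5 : ℝ) ^ (((9 / 10 : ℝ)) ^ k)) := by
    intro k
    induction k with
    | zero => simpa using admissible_five
    | succ k ih =>
      refine ih.contract (Real.one_le_rpow (by norm_num) (by positivity)) ?_
      rw [← Real.rpow_mul (by norm_num)]
      refine Real.rpow_lt_rpow_of_exponent_lt (by norm_num) ?_
      rw [pow_succ]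
      exact mul_lt_mul_of_pos_left (by norm_num) (by positivity)
  have ht : Tendsto (fun k : ℕ => (5 : ℝ) ^ ((9 / 10 : ℝ) ^ k)) atTop (nhds 1) := by
    have := ((Real.continuousAt_const_rpow (b := 0) (by norm_num : (5 : ℝ) ≠ 0)).tendsto).comp
      (tendsto_pow_atTop_nhds_zero_of_lt_one (by norm_num : (0 : ℝ) ≤ 9 / 10) (by norm_num))
    simpa [Function.comp_def] using this
  obtain ⟨k, hlt⟩ := (ht.eventually (eventually_lt_nhds hμ)).exists
  obtain ⟨K, hK⟩ := hk k
  refine ⟨K, fun n => (hK n).trans ?_⟩
  have hK0 : 0 ≤ K := le_trans (Nat.cast_nonneg _) (by simpa using hK 0)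
  gcongr

/-- The balls grow more slowly than any exponential. -/
theorem ball_subexp (M : ℕ) {c : ℝ} (hc : 1 < c) :
    ∃ K : ℝ, ∀ m : ℕ, ((ball (M * m)).ncard : ℝ) ≤ K * c ^ m := by
  set e : ℝ := ((53 * M + 1 : ℕ) : ℝ) with he
  have he0 : 0 < e := Nat.cast_pos.2 (Nat.succ_pos _)
  set μ := c ^ (e⁻¹)
  have hμ : 1 < μ := Real.one_lt_rpow hc (by positivity)
  obtain ⟨K, hK⟩ := admissible_of_one_lt hμ
  have hK0 : 0 ≤ K := le_trans (Nat.cast_nonneg _) (by simpa using hK 0)
  refine ⟨K, fun m => ?_⟩
  refine le_trans (Nat.cast_le.2 (Set.ncard_le_ncard (ball_subset_wball _) (finite_wball _))) ?_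
  refine (hK _).trans (mul_le_mul_of_nonneg_left ?_ hK0)
  calc μ ^ (53 * (M * m)) ≤ μ ^ ((53 * M + 1) * m) :=
        pow_le_pow_right₀ hμ.le (by rw [add_mul, mul_assoc]; omega)
    _ = c ^ m := by
      rw [pow_mul, ← Real.rpow_natCast μ, ← Real.rpow_mul (by linarith), ← he,
        inv_mul_cancel₀ (by positivity), Real.rpow_one]

end FA.Grigorchuk

end
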